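import Fermat.Agent.Gateway.HK1.Ext
import Fermat.Agent.S24.FFDataAll
import Fermat.Agent.S24.TransJ
import Fermat.Agent.S28.Conjugates
import Fermat.Agent.S28.ModEq.Final
import Fermat.Prelude.Def_ModularCurve_HeckeOperatorTotal

/-!
# `HeckeInputsAlong` for the modular function fields over an algebraically closed field

For `L` algebraically closed of characteristic zero, the function field
`F_L(M) = laurentBaseChange L (modularFunctionFieldFull M)` is a finite extension of `L(j)`
(prime level modular equations of P-S28), hence has principal divisors (P-S24 part I), and both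
degeneracy maps `F_L(N) → F_L(N ℓ)` are finite.  Together with `HK1/Ext.lean` this gives
`ModularCurve.HeckeInputsAlong L N ℓ`.
-/

set_option autoImplicit false
set_option linter.unusedSectionVars false

noncomputable section

open ModularCurve AlgebraicCurve IntermediateField Polynomial

namespace Fermat.Agent.Gateway.HK1

open Fermat.Agent.S24 Fermat.Agent.S28 Fermat.Agent.S28.Conjugates

section FiniteHom

variable {K F F' : Type*} [Field K] [Field F] [Field F'] [Algebra K F] [Algebra K F']

/-- A `K`-morphism `φ : F → F'` is finite as soon as `F'` is finite over `K(φ x)` for some `x`. -/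
theorem finiteAlong_of_finiteDimensional (φ : F →ₐ[K] F') (x : F)
    [h : FiniteDimensional K⟮φ x⟯ F'] : FiniteAlong K φ := by
  let _ := algebraAlong φ
  show Module.Finite F F'
  obtain ⟨s, hs⟩ := h.fg_top
  refine ⟨⟨s, ?_⟩⟩
  rw [eq_top_iff]
  rintro y -
  have hy : y ∈ Submodule.span K⟮φ x⟯ (s : Set F') := hs ▸ Submodule.mem_top
  induction hy using Submodule.span_induction with
  | mem z hz => exact Submodule.subset_span hz
  | zero => exact zero_mem _
  | add a b _ _ ha hb => exact add_mem ha hb
  | smul r a _ ha =>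
    have hle : K⟮φ x⟯ ≤ φ.fieldRange := by
      rw [adjoin_le_iff]
      rintro _ rfl
      exact ⟨x, rfl⟩
    obtain ⟨r', hr'⟩ := hle r.2
    have h1 : r • a = r' • a := by
      rw [Algebra.smul_def, Algebra.smul_def]
      show (r : F') * a = φ r' * a
      have h2 : φ r' = (r : F') := hr'
      rw [h2]
    rw [h1]
    exact Submodule.smul_mem _ _ ha

end FiniteHom

section Modular

variable (L : Type) [Field L] [Algebra ℚ L]

theorem coeffEmb_jq : coeffEmb L jq = jqModC L := by
  rw [← jqModC_rat]
  exact map_jqModC (algebraMap ℚ L)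

theorem coeffEmb_qExpand (d : ℕ) [NeZero d] (x : LaurentSeries ℚ) :
    coeffEmb L (qExpand ℚ d x) = qExpand L d (coeffEmb L x) := by
  ext k
  by_cases hk : (d : ℤ) ∣ k
  · obtain ⟨m, rfl⟩ := hk
    rw [coeffEmb_coeff, qExpand_coeff_mul, qExpand_coeff_mul, coeffEmb_coeff]
  · rw [coeffEmb_coeff, qExpand_coeff_of_not_dvd d _ hk, qExpand_coeff_of_not_dvd d _ hk,
      map_zero]

theorem coeffEmb_algebraMap (c : ℚ) :
    coeffEmb L (algebraMap ℚ (LaurentSeries ℚ) c) =
      algebraMap L (LaurentSeries L) (algebraMap ℚ L c) := by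
  rw [algebraMap_laurentSeries_eq_single, algebraMap_laurentSeries_eq_single]
  exact coeffMap_single _ _ _

/-- the series `j(q^d)` over `L` -/
def genΩ (d : ℕ) : LaurentSeries L := expd d (jqModC L)

theorem genΩ_mem {M d : ℕ} [NeZero M] (hd : d ∣ M) :
    genΩ L d ∈ laurentBaseChange L (modularFunctionFieldFull M) := by
  have hd0 : d ≠ 0 := ne_zero_of_dvd_ne_zero (NeZero.ne M) hd
  have : NeZero d := ⟨hd0⟩
  rw [genΩ, expd_eq, ← coeffEmb_jq, ← coeffEmb_qExpand]
  exact coeffEmb_mem_laurentBaseChange L (jqd_mem_full M hd)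

variable (M : ℕ) [NeZero M]

/-- the function field of level `M` over `L` -/
abbrev FL : Type := ↥(laurentBaseChange L (modularFunctionFieldFull M))

/-- `j(q^d)` as an element of the function field of level `M`, for `d ∣ M` -/
def genF {d : ℕ} (hd : d ∣ M) : FL L M := ⟨genΩ L d, genΩ_mem L hd⟩

/-- `j` as an element of the function field of level `M` -/
def jL : FL L M := ⟨jqModC L, by
  have h := genΩ_mem L (one_dvd M)
  rwa [genΩ, expd_one] at h⟩

theorem transcendental_jqModC : Transcendental L (jqModC L) := by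
  refine TransJ.transcendental_of_coeff_ne_zero _ (n := -1) (by norm_num) ?_
  rw [jqModC_coeff_neg_one]
  exact one_ne_zero

theorem transcendental_jL : Transcendental L (jL L M) :=
  (transcendental_algebraMap_iff
    (algebraMap (FL L M) (LaurentSeries L)).injective).mp (transcendental_jqModC L)

theorem transcendental_of_coe_eq_genΩ {d : ℕ} (hd : d ≠ 0) (y : FL L M)
    (hy : (y : LaurentSeries L) = genΩ L d) : Transcendental L y := by
  apply (transcendental_algebraMap_iff (algebraMap (FL L M) (LaurentSeries L)).injective).mp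
  show Transcendental L (y : LaurentSeries L)
  rw [hy]
  refine TransJ.transcendental_of_coeff_ne_zero _ (n := (d : ℤ) * (-1)) ?_ ?_
  · have : (0 : ℤ) < d := by exact_mod_cast Nat.pos_of_ne_zero hd
    linarith
  · rw [genΩ, expd_coeff_mul hd, jqModC_coeff_neg_one]
    exact one_ne_zero

variable [IsAlgClosed L] [CharZero L]

theorem exists_primitiveRoot_unit (r : ℕ) [NeZero r] : ∃ ζ : Lˣ, IsPrimitiveRoot ζ r := by
  obtain ⟨ζ, hζ⟩ := HasEnoughRootsOfUnity.exists_primitiveRoot L r
  have hu : IsUnit ζ := hζ.isUnit (NeZero.ne r)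
  refine ⟨hu.unit, ?_⟩
  rw [← IsPrimitiveRoot.coe_units_iff]
  simpa using hζ

/-- every `j(q^d)`, `d ∣ M`, is integral over `L(j)` -/
theorem isIntegral_of_coe_eq : ∀ d, d ∣ M → ∀ y : FL L M,
    (y : LaurentSeries L) = genΩ L d → IsIntegral L⟮jL L M⟯ y := by
  intro d
  induction d using Nat.strong_induction_on with
  | _ d ih =>
    intro hd y hy
    rcases eq_or_ne d 1 with rfl | hd1
    · have h1 : y = jL L M := Subtype.ext (by rw [hy, genΩ, expd_one]; rfl)
      rw [h1]
      exact isIntegral_algebraMap (x := (⟨jL L M, mem_adjoin_simple_self L _⟩ : L⟮jL L M⟯))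
    · have hM : M ≠ 0 := NeZero.ne M
      have hd0 : d ≠ 0 := ne_zero_of_dvd_ne_zero hM hd
      have hrp : (d.minFac).Prime := Nat.minFac_prime hd1
      obtain ⟨d', hd'⟩ := Nat.minFac_dvd d
      set r := d.minFac with hr
      have hr0 : r ≠ 0 := hrp.ne_zero
      have hd'0 : d' ≠ 0 := fun h => hd0 (by rw [hd', h, mul_zero])
      have hd'lt : d' < d := by
        rw [hd']
        exact lt_mul_of_one_lt_left (Nat.pos_of_ne_zero hd'0) hrp.one_lt
      have hd'd : d' ∣ d := ⟨r, by rw [hd', mul_comm]⟩
      have : NeZero r := ⟨hr0⟩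
      obtain ⟨ζ, hζ⟩ := exists_primitiveRoot_unit L r
      have hrel := rel_expd (k := L) (ModEq.modularEquation r hrp) ζ hζ hd'0
      rw [mul_comm d' r, ← hd'] at hrel
      have hd'M : d' ∣ M := hd'd.trans hd
      have hy' := ih d' hd'lt hd'M (genF L M hd'M) rfl
      refine isIntegral_of_rel hy' (ModEq.modularEquation r hrp).Φ
        (ModEq.modularEquation r hrp).monic ?_
      apply (algebraMap (FL L M) (LaurentSeries L)).injective
      rw [map_zero, ← Polynomial.eval_map_apply, map_evalA_map]
      show eval (y : LaurentSeries L) (map (evalA (genΩ L d')) _) = 0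
      rw [hy]
      exact hrel

/-- the generators of the function field of level `M` -/
def genSet : Set (FL L M) :=
  Set.range fun d : M.divisors => genF L M (Nat.dvd_of_mem_divisors d.2)

theorem adjoin_genSet : adjoin L (genSet L M) = ⊤ := by
  rw [eq_top_iff]
  rintro y -
  let T : IntermediateField L (LaurentSeries L) :=
    (adjoin L (genSet L M)).map (laurentBaseChange L (modularFunctionFieldFull M)).val
  have hgen : ∀ d (hd : d ∣ M), genΩ L d ∈ T := fun d hd =>
    ⟨genF L M hd, subset_adjoin L _ ⟨⟨d, Nat.mem_divisors.mpr ⟨hd, NeZero.ne M⟩⟩, rfl⟩, rfl⟩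
  have hT : ∀ x ∈ modularFunctionFieldFull M, coeffEmb L x ∈ T := by
    intro x hx
    rw [modularFunctionFieldFull] at hx
    induction hx using adjoin_induction with
    | mem x hx =>
      obtain ⟨d, hne, hdvd, rfl⟩ := hx
      rw [coeffEmb_qExpand, coeffEmb_jq, ← expd_eq]
      exact hgen d hdvd
    | algebraMap c =>
      rw [coeffEmb_algebraMap]
      exact T.algebraMap_mem _
    | add x y _ _ hx hy =>
      rw [map_add]
      exact add_mem hx hy
    | inv x _ hx =>
      rw [map_inv₀]
      exact inv_mem hx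
    | mul x y _ _ hx hy =>
      rw [map_mul]
      exact mul_mem hx hy
  have hle : laurentBaseChange L (modularFunctionFieldFull M) ≤ T := by
    rw [laurentBaseChange, adjoin_le_iff]
    rintro _ ⟨x, hx, rfl⟩
    exact hT x hx
  obtain ⟨z, hz, hzy⟩ := hle y.2
  have hzy' : z = y := Subtype.ext hzy
  exact hzy' ▸ hz

/-- the function field of level `M` is finite over `L(j)` -/
theorem finiteDimensional_FL : FiniteDimensional L⟮jL L M⟯ (FL L M) := by
  have hint : ∀ y ∈ genSet L M, IsIntegral L⟮jL L M⟯ y := by
    rintro _ ⟨d, rfl⟩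
    exact isIntegral_of_coe_eq L M d.1 (Nat.dvd_of_mem_divisors d.2) _ rfl
  have : Finite (genSet L M) := Set.finite_range _
  have hfd := IntermediateField.finiteDimensional_adjoin (K := L⟮jL L M⟯) hint
  have htop : adjoin L⟮jL L M⟯ (genSet L M) = ⊤ := by
    rw [eq_top_iff]
    have h1 : adjoin L (genSet L M) ≤ (adjoin L⟮jL L M⟯ (genSet L M)).restrictScalars L :=
      adjoin_le_iff.mpr (subset_adjoin _ _)
    rw [adjoin_genSet] at h1
    intro y _
    exact h1 (mem_top)
  rw [htop] at hfd
  exact Module.Finite.equiv (topEquiv (F := L⟮jL L M⟯) (E := FL L M)).toLinearEquiv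

/-- the function field of level `M` over `L` has principal divisors -/
theorem hasPrincipalDivisors_FL : HasPrincipalDivisors L (FL L M) :=
  haveI := finiteDimensional_FL L M
  PDiv.hasPrincipalDivisors (jL L M) (transcendental_jL L M)
    (fun v => PD.deg_eq_one (transcendental_jL L M) v)

variable (N ℓ : ℕ) [NeZero N] [NeZero ℓ]

theorem finiteAlong_alpha : FiniteAlong L (heckeAlphaBar L N ℓ) := by
  have h : heckeAlphaBar L N ℓ (jL L N) = jL L (N * ℓ) :=
    Subtype.ext (coe_heckeAlphaBar N ℓ _)
  have : FiniteDimensional L⟮heckeAlphaBar L N ℓ (jL L N)⟯ (FL L (N * ℓ)) := by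
    rw [h]
    exact finiteDimensional_FL L (N * ℓ)
  exact finiteAlong_of_finiteDimensional _ (jL L N)

theorem finiteAlong_beta : FiniteAlong L (heckeBetaBar L N ℓ) := by
  have hy : Transcendental L (heckeBetaBar L N ℓ (jL L N)) := by
    refine transcendental_of_coe_eq_genΩ L (N * ℓ) (NeZero.ne ℓ) _ ?_
    rw [coe_heckeBetaBar, genΩ, expd_eq]
    rfl
  have := finiteDimensional_FL L (N * ℓ)
  have : FiniteDimensional L⟮heckeBetaBar L N ℓ (jL L N)⟯ (FL L (N * ℓ)) :=
    PDiv.finiteDimensional_adjoin_simple_of_transcendental (transcendental_jL L (N * ℓ)) hy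
  exact finiteAlong_of_finiteDimensional _ (jL L N)

/-- **WP-HK1**: all inputs of the Hecke correspondence `T_ℓ` on `Pic⁰` of the modular function
field of level `N` over an algebraically closed field of characteristic zero. -/
theorem heckeInputsAlong : HeckeInputsAlong L N ℓ := by
  have : CharZero (FL L N) := charZero_of_injective_algebraMap (algebraMap L (FL L N)).injective
  have := hasPrincipalDivisors_FL L (N * ℓ)
  have hfa := finiteAlong_alpha L N ℓ
  have hfb := finiteAlong_beta L N ℓ
  exact heckeInputsAlong_intro (isIntegral_of_finiteAlong _ hfa) (isIntegral_of_finiteAlong _ hfb)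
    (fundamentalIdentityAlong _ _ hfb) hfa (normFormulaAlong _ hfa)

/-- The instance used by the prelude's `JZero` objects: `L = ℚ̄`. -/
theorem heckeInputsAlong_algebraicClosure :
    HeckeInputsAlong (AlgebraicClosure ℚ) N ℓ :=
  heckeInputsAlong (AlgebraicClosure ℚ) N ℓ

end Modular

end Fermat.Agent.Gateway.HK1
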