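import Fermat.Agent.S24.OrdNorm
import Fermat.Agent.S24.PlacesDedekind
import Fermat.Prelude.Def_AlgebraicCurve_Correspondence

/-!
# Extensions of function fields: fundamental identity and the norm formula

`F' / F` a finite separable extension of fields over `K`.  For the places in the sense of the
prelude (`AlgebraicCurve.Place`) we prove `∑_{w | v} e(w|v) f(w|v) = [F' : F]`
(`SumRamificationInertia`, hence `FundamentalIdentity`) and
`∑_{w | v} f(w|v) ord_w g = ord_v (N g)` (`PushforwardNormFormula`).

The first part is in the abstract AKLB setting (`A` Dedekind with fraction field `F`, `B` its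
integral closure in `F'`, the place `v` attached to a prime `p` of `A`); the second part applies it
to the valuation ring `A` of an arbitrary place `v`.
-/

set_option autoImplicit false
set_option linter.unusedSectionVars false

noncomputable section

open AlgebraicCurve IsDedekindDomain IsDedekindDomain.HeightOneSpectrum WithZero Ideal

namespace Fermat.Agent.Gateway.HK1

open Fermat.Agent.S24

section Abstract

variable {K F F' : Type*} [Field K] [Field F] [Field F'] [Algebra K F] [Algebra K F']
  [Algebra F F'] [IsScalarTower K F F'] [Algebra.IsIntegral F F']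
variable {A B : Type*} [CommRing A] [IsDedekindDomain A] [CommRing B] [IsDedekindDomain B]
  [Algebra A B] [Module.IsTorsionFree A B]
  [Algebra A F] [IsFractionRing A F] [Algebra A F'] [IsScalarTower A F F']
  [Algebra B F'] [IsFractionRing B F'] [IsScalarTower A B F']
  [Algebra K A] [IsScalarTower K A F] [Algebra K B] [IsScalarTower K B F']

/-- `ord` at a prime above `p` of an element of the small field. -/
theorem ord_algebraMap_of_liesOver (p : HeightOneSpectrum A) (Q : HeightOneSpectrum B)
    [Q.asIdeal.LiesOver p.asIdeal] (x : F) :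
    (PD.placeOfPrime (K := K) (F := F') Q).ord (algebraMap F F' x) =
      (p.asIdeal.ramificationIdx' Q.asIdeal : ℤ) * (PD.placeOfPrime (K := K) (F := F) p).ord x := by
  rcases eq_or_ne x 0 with rfl | hx
  · simp
  rw [PD.placeOfPrime_ord, PD.placeOfPrime_ord, ← valuation_liesOver F' p Q x, log_pow]
  simp only [nsmul_eq_mul]
  ring

theorem restrict_placeOfPrime (p : HeightOneSpectrum A) (Q : HeightOneSpectrum B)
    [Q.asIdeal.LiesOver p.asIdeal] :
    (PD.placeOfPrime (K := K) (F := F') Q).restrict F = PD.placeOfPrime (K := K) (F := F) p := by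
  apply Place.ext
  ext x
  rw [Place.restrict_toValuationSubring, ValuationSubring.mem_comap,
    PD.placeOfPrime_toValuationSubring, PD.placeOfPrime_toValuationSubring,
    Valuation.mem_valuationSubring_iff, Valuation.mem_valuationSubring_iff,
    ← valuation_liesOver F' p Q x]
  exact pow_le_one_iff (Ideal.IsDedekindDomain.ramificationIdx'_ne_zero_of_liesOver Q.asIdeal p.ne_bot)

theorem ramificationIndex_placeOfPrime (p : HeightOneSpectrum A) (Q : HeightOneSpectrum B)
    [Q.asIdeal.LiesOver p.asIdeal] :
    (PD.placeOfPrime (K := K) (F := F') Q).ramificationIndex F =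
      p.asIdeal.ramificationIdx' Q.asIdeal := by
  obtain ⟨π, hπ⟩ := p.valuation_exists_uniformizer F
  have h1 : (PD.placeOfPrime (K := K) (F := F) p).ord π = 1 := by
    rw [PD.placeOfPrime_ord, hπ, log_exp]; ring
  have h2 := (PD.placeOfPrime (K := K) (F := F') Q).ord_restrict (F := F) π
  rw [restrict_placeOfPrime p Q, ord_algebraMap_of_liesOver p Q, h1, mul_one, mul_one] at h2
  exact_mod_cast h2.symm

/-- `A ⧸ P` is the residue field of any place equal to the place of `P`. -/
def quotEquivOfEq (v' : Place K F) (P : HeightOneSpectrum A)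
    (h : v' = PD.placeOfPrime (K := K) (F := F) P) : (A ⧸ P.asIdeal) ≃+* v'.ResidueField := by
  subst h
  exact (PD.quotientEquivResidue (K := K) (F := F) P).toRingEquiv

theorem algebraMap_mem_of_eq (v' : Place K F) (P : HeightOneSpectrum A)
    (h : v' = PD.placeOfPrime (K := K) (F := F) P) (a : A) :
    algebraMap A F a ∈ v'.toValuationSubring := by
  subst h
  exact PD.algebraMap_mem_placeOfPrime P a

theorem quotientEquivResidue_mk (P : HeightOneSpectrum A) (a : A) :
    PD.quotientEquivResidue (K := K) (F := F) P (Ideal.Quotient.mk _ a) =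
      IsLocalRing.residue _ (⟨algebraMap A F a, PD.algebraMap_mem_placeOfPrime P a⟩ :
        (PD.placeOfPrime (K := K) (F := F) P).toValuationSubring) := rfl

theorem quotEquivOfEq_mk (v' : Place K F) (P : HeightOneSpectrum A)
    (h : v' = PD.placeOfPrime (K := K) (F := F) P) (a : A) :
    quotEquivOfEq v' P h (Ideal.Quotient.mk _ a) =
      IsLocalRing.residue _ (⟨algebraMap A F a, algebraMap_mem_of_eq v' P h a⟩ :
        v'.toValuationSubring) := by
  subst h
  rfl

theorem inertiaDeg_placeOfPrime (p : HeightOneSpectrum A) (Q : HeightOneSpectrum B)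
    [Q.asIdeal.LiesOver p.asIdeal] :
    (PD.placeOfPrime (K := K) (F := F') Q).inertiaDeg F = Q.asIdeal.inertiaDeg A := by
  have hpmax : p.asIdeal.IsMaximal := p.isMaximal
  have hQmax : Q.asIdeal.IsMaximal := Q.isMaximal
  rw [Ideal.inertiaDeg_eq_of_isMaximal p.asIdeal Q.asIdeal, Place.inertiaDeg]
  symm
  apply Algebra.finrank_eq_of_equiv_equiv
    (quotEquivOfEq ((PD.placeOfPrime (K := K) (F := F') Q).restrict F) p
      (restrict_placeOfPrime p Q))
    (PD.quotientEquivResidue (K := K) (F := F') Q).toRingEquiv
  apply Ideal.Quotient.ringHom_ext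
  ext a
  simp only [RingHom.coe_comp, Function.comp_apply, RingEquiv.toRingHom_eq_coe,
    RingHom.coe_coe]
  rw [quotEquivOfEq_mk, Place.algebraMap_residueField_eq, Place.restrictResidueMap_residue]
  have h1 : algebraMap (A ⧸ p.asIdeal) (B ⧸ Q.asIdeal) (Ideal.Quotient.mk p.asIdeal a) =
      Ideal.Quotient.mk Q.asIdeal (algebraMap A B a) := rfl
  rw [h1]
  show _ = PD.quotientEquivResidue (K := K) (F := F') Q (Ideal.Quotient.mk _ (algebraMap A B a))
  rw [quotientEquivResidue_mk]
  congr 1
  ext
  show algebraMap F F' (algebraMap A F a) = algebraMap B F' (algebraMap A B a)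
  rw [← IsScalarTower.algebraMap_apply, ← IsScalarTower.algebraMap_apply]

section Fiber

variable [IsIntegralClosure B A F']

/-- the valuation ring of a place over the place of `p` contains `B` -/
theorem algebraMap_mem_of_restrict_eq (p : HeightOneSpectrum A) (w : Place K F')
    (hw : w.restrict F = PD.placeOfPrime (K := K) (F := F) p) (b : B) :
    algebraMap B F' b ∈ w.toValuationSubring := by
  have hA : ∀ a : A, algebraMap A F' a ∈ w.toValuationSubring := by
    intro a
    have := algebraMap_mem_of_eq (w.restrict F) p hw a
    rw [Place.restrict_toValuationSubring, ValuationSubring.mem_comap,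
      ← IsScalarTower.algebraMap_apply] at this
    exact this
  have hint : IsIntegral A (algebraMap B F' b) :=
    (IsIntegralClosure.isIntegral_iff (A := B)).mpr ⟨b, rfl⟩
  let _ : Algebra A w.toValuationSubring :=
    ((algebraMap A F').codRestrict w.toValuationSubring.toSubring hA).toAlgebra
  have : IsScalarTower A w.toValuationSubring F' := IsScalarTower.of_algebraMap_eq fun a => rfl
  have hx : IsIntegral w.toValuationSubring (algebraMap B F' b) := hint.tower_top
  obtain ⟨y, hy⟩ := IsIntegrallyClosed.isIntegral_iff.mp hx
  exact hy ▸ y.2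

variable (B) in
/-- the prime of `B` attached to a place over the place of `p` -/
def primeOfFiber (p : HeightOneSpectrum A) (w : Place K F')
    (hw : w.restrict F = PD.placeOfPrime (K := K) (F := F) p) : HeightOneSpectrum B :=
  PD.primeOfPlace w (algebraMap_mem_of_restrict_eq p w hw)

theorem placeOfPrime_primeOfFiber (p : HeightOneSpectrum A) (w : Place K F')
    (hw : w.restrict F = PD.placeOfPrime (K := K) (F := F) p) :
    PD.placeOfPrime (K := K) (F := F') (primeOfFiber B p w hw) = w :=
  PD.placeOfPrime_primeOfPlace w _

theorem mem_iff_ord_pos (p : HeightOneSpectrum A) {a : A} (ha : a ≠ 0) :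
    a ∈ p.asIdeal ↔ 0 < (PD.placeOfPrime (K := K) (F := F) p).ord (algebraMap A F a) := by
  have h := PD.mem_primeOfPlace_iff_ord (B := A) (PD.placeOfPrime (K := K) (F := F) p)
    (PD.algebraMap_mem_placeOfPrime p) ha
  rwa [PD.primeOfPlace_placeOfPrime] at h

theorem liesOver_primeOfFiber (p : HeightOneSpectrum A) (w : Place K F')
    (hw : w.restrict F = PD.placeOfPrime (K := K) (F := F) p) :
    (primeOfFiber B p w hw).asIdeal.LiesOver p.asIdeal := by
  constructor
  have hle : p.asIdeal ≤ (primeOfFiber B p w hw).asIdeal.under A := by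
    intro a ha
    rw [Ideal.under_def, Ideal.mem_comap]
    rcases eq_or_ne a 0 with rfl | ha0
    · simp
    have hb0 : algebraMap A B a ≠ 0 := by
      intro h0
      apply ha0
      have h1 : algebraMap A F' a = 0 := by
        rw [IsScalarTower.algebraMap_apply A B F', h0, map_zero]
      rw [IsScalarTower.algebraMap_apply A F F'] at h1
      have h2 : algebraMap A F a = 0 := by simpa using h1
      exact (IsFractionRing.injective A F) (by rw [h2, map_zero])
    rw [primeOfFiber, PD.mem_primeOfPlace_iff_ord _ _ hb0, ← IsScalarTower.algebraMap_apply,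
      IsScalarTower.algebraMap_apply A F F', w.ord_restrict, hw]
    have h1 := (mem_iff_ord_pos (K := K) (F := F) p ha0).mp ha
    have h2 := w.ramificationIndex_pos (F := F)
    positivity
  have hmax : p.asIdeal.IsMaximal := p.isMaximal
  have hprime : ((primeOfFiber B p w hw).asIdeal.under A).IsPrime :=
    Ideal.IsPrime.under A _
  exact hmax.eq_of_le hprime.ne_top hle

/-- a prime over `p` as a height one prime -/
def primeAbove (p : HeightOneSpectrum A) (Q : p.asIdeal.primesOver B) : HeightOneSpectrum B :=
  ⟨Q.1, Q.2.1, Ideal.ne_bot_of_mem_primesOver p.ne_bot Q.2⟩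

instance liesOver_primeAbove (p : HeightOneSpectrum A) (Q : p.asIdeal.primesOver B) :
    (primeAbove p Q).asIdeal.LiesOver p.asIdeal := Q.2.2

/-- primes of `B` above `p` correspond to places of `F'` above the place of `p` -/
def fiberEquiv (p : HeightOneSpectrum A) :
    p.asIdeal.primesOver B ≃
      {w : Place K F' // w.restrict F = PD.placeOfPrime (K := K) (F := F) p} where
  toFun Q := ⟨PD.placeOfPrime (primeAbove p Q), restrict_placeOfPrime p _⟩
  invFun w := ⟨(primeOfFiber B p w.1 w.2).asIdeal, (primeOfFiber B p w.1 w.2).isPrime,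
    liesOver_primeOfFiber p w.1 w.2⟩
  left_inv Q := by
    apply Subtype.ext
    show (primeOfFiber B p (PD.placeOfPrime (K := K) (F := F') (primeAbove p Q))
      (restrict_placeOfPrime (K := K) (F := F) (F' := F') p _)).asIdeal = Q.1
    rw [primeOfFiber, PD.primeOfPlace_placeOfPrime]
    rfl
  right_inv w := Subtype.ext (placeOfPrime_primeOfFiber p w.1 w.2)

theorem sum_fiber_eq [HasPrincipalDivisors K F'] (p : HeightOneSpectrum A)
    [Fintype (p.asIdeal.primesOver B)] (g : Place K F' → ℤ) :
    ∑ w ∈ (PD.placeOfPrime (K := K) (F := F) p).fiber F', g w =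
      ∑ Q : p.asIdeal.primesOver B, g (PD.placeOfPrime (primeAbove p Q)) := by
  classical
  let _ : Fintype {w : Place K F' // w.restrict F = PD.placeOfPrime (K := K) (F := F) p} :=
    Fintype.ofEquiv _ (fiberEquiv (K := K) (F := F) (F' := F') (B := B) p)
  rw [Finset.sum_subtype (p := fun w : Place K F' =>
    w.restrict F = PD.placeOfPrime (K := K) (F := F) p) _ (fun w => Place.mem_fiber)]
  rw [← (fiberEquiv (K := K) (F := F) (F' := F') (B := B) p).sum_comp]
  rfl

end Fiber

section Main

variable [IsIntegralClosure B A F'] [Module.Finite A B] [HasPrincipalDivisors K F']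

variable (B) in
include B in
/-- **Fundamental identity** at the place of `p`. -/
theorem sum_ramificationIndex_mul_inertiaDeg (p : HeightOneSpectrum A) :
    ∑ w ∈ (PD.placeOfPrime (K := K) (F := F) p).fiber F',
        (w.ramificationIndex F : ℤ) * (w.inertiaDeg F : ℤ) = (Module.finrank F F' : ℤ) := by
  have hpmax : p.asIdeal.IsMaximal := p.isMaximal
  rw [sum_fiber_eq (B := B) p, IsFractionRing.finrank_eq A F B F',
    ← Ideal.sum_ramification_inertia_eq_finrank p.asIdeal B, Nat.cast_sum]
  refine Finset.sum_congr rfl fun Q _ => ?_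
  rw [ramificationIndex_placeOfPrime p (primeAbove p Q), inertiaDeg_placeOfPrime p (primeAbove p Q),
    ramificationIdx'_eq_ramificationIdx p.asIdeal (primeAbove p Q).asIdeal p.ne_bot, Nat.cast_mul]
  rfl

variable [FiniteDimensional F F'] [PerfectField (FractionRing A)]

theorem log_valuation_norm_algebraMap (p : HeightOneSpectrum A) {b : B} (hb : b ≠ 0) :
    log (p.valuation F (Algebra.norm F (algebraMap B F' b))) =
      ∑ Q : p.asIdeal.primesOver B, (Q.1.inertiaDeg A : ℤ) *
        log ((primeAbove p Q).valuation F' (algebraMap B F' b)) := by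
  have hpmax : p.asIdeal.IsMaximal := p.isMaximal
  have hbF : algebraMap B F' b ≠ 0 :=
    (IsFractionRing.injective B F').ne hb |>.trans_eq (map_zero _)
  have hN : Algebra.norm F (algebraMap B F' b) ≠ 0 := by
    rw [Ne, Algebra.norm_eq_zero_iff]
    exact hbF
  have hint : algebraMap A F (Algebra.intNorm A B b) = Algebra.norm F (algebraMap B F' b) :=
    Algebra.algebraMap_intNorm (A := A) (K := F) (L := F') (B := B) b
  have hc0 : Algebra.intNorm A B b ≠ 0 := by
    intro h0
    rw [h0, map_zero] at hint
    exact hN hint.symm
  rw [← hint, valuation_of_algebraMap, intValuation_eq_exp_neg_multiplicity p hc0, log_exp,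
    ← relNorm_singleton, OrdNorm.multiplicity_relNorm p.asIdeal p.ne_bot _ (by simpa using hb),
    Nat.cast_sum, ← Finset.sum_neg_distrib]
  refine Finset.sum_congr rfl fun Q _ => ?_
  rw [OrdNorm.log_valuation_algebraMap (F := F') (primeAbove p Q) hb, Nat.cast_mul]
  show _ = _ * -((multiplicity Q.1 (Ideal.span {b}) : ℕ) : ℤ)
  ring

theorem log_valuation_norm (p : HeightOneSpectrum A) {f : F'} (hf0 : f ≠ 0) :
    log (p.valuation F (Algebra.norm F f)) =
      ∑ Q : p.asIdeal.primesOver B, (Q.1.inertiaDeg A : ℤ) *
        log ((primeAbove p Q).valuation F' f) := by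
  obtain ⟨b, c, hc, rfl⟩ := IsFractionRing.div_surjective (A := B) f
  have hc0 : c ≠ 0 := nonZeroDivisors.ne_zero hc
  have hb0 : b ≠ 0 := by
    rintro rfl
    simp at hf0
  have hbF : algebraMap B F' b ≠ 0 :=
    (IsFractionRing.injective B F').ne hb0 |>.trans_eq (map_zero _)
  have hcF : algebraMap B F' c ≠ 0 :=
    (IsFractionRing.injective B F').ne hc0 |>.trans_eq (map_zero _)
  have hNc : Algebra.norm F (algebraMap B F' c) ≠ 0 := by
    rw [Ne, Algebra.norm_eq_zero_iff]; exact hcF
  set f := algebraMap B F' b / algebraMap B F' c with hfdef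
  have hmul : f * algebraMap B F' c = algebraMap B F' b := div_mul_cancel₀ _ hcF
  have hNf : Algebra.norm F f ≠ 0 := by
    rw [Ne, Algebra.norm_eq_zero_iff]; exact hf0
  have h1 : log (p.valuation F (Algebra.norm F f)) =
      log (p.valuation F (Algebra.norm F (algebraMap B F' b))) -
        log (p.valuation F (Algebra.norm F (algebraMap B F' c))) := by
    rw [eq_sub_iff_add_eq, ← log_mul ((Valuation.ne_zero_iff _).mpr hNf)
      ((Valuation.ne_zero_iff _).mpr hNc), ← map_mul, ← map_mul, hmul]
  rw [h1, log_valuation_norm_algebraMap p hb0, log_valuation_norm_algebraMap p hc0,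
    ← Finset.sum_sub_distrib]
  refine Finset.sum_congr rfl (fun Q _ => ?_)
  rw [← mul_sub]
  congr 1
  rw [sub_eq_iff_eq_add, ← log_mul ((Valuation.ne_zero_iff _).mpr hf0)
    ((Valuation.ne_zero_iff _).mpr hcF), ← map_mul, hmul]

variable (B) in
include B in
/-- **Norm formula** at the place of `p`. -/
theorem sum_ord_mul_inertiaDeg (p : HeightOneSpectrum A) {f : F'} (hf : f ≠ 0) :
    ∑ w ∈ (PD.placeOfPrime (K := K) (F := F) p).fiber F', w.ord f * (w.inertiaDeg F : ℤ) =
      (PD.placeOfPrime (K := K) (F := F) p).ord (Algebra.norm F f) := by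
  rw [sum_fiber_eq (B := B) p, PD.placeOfPrime_ord, log_valuation_norm (B := B) p hf,
    ← Finset.sum_neg_distrib]
  refine Finset.sum_congr rfl fun Q _ => ?_
  rw [inertiaDeg_placeOfPrime p (primeAbove p Q), PD.placeOfPrime_ord]
  have h : (primeAbove p Q).asIdeal = Q.1 := rfl
  rw [h]
  ring

end Main

end Abstract

section Concrete

variable {K F F' : Type*} [Field K] [Field F] [Field F'] [Algebra K F] [Algebra K F']
  [Algebra F F'] [IsScalarTower K F F'] [FiniteDimensional F F'] [PerfectField F]
  [HasPrincipalDivisors K F']

theorem placeOfPrime_heightOneSpectrum (v : Place K F) :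
    PD.placeOfPrime (K := K) (F := F) v.heightOneSpectrum = v := by
  have h := PD.placeOfPrime_primeOfPlace (B := v.toValuationSubring) v (fun b => b.2)
  have h2 : PD.primeOfPlace (B := v.toValuationSubring) v (fun b => b.2) = v.heightOneSpectrum := by
    apply HeightOneSpectrum.ext
    ext b
    rw [PD.mem_primeOfPlace_iff]
    rfl
  rwa [h2] at h

set_option maxHeartbeats 1000000 in
/-- **Fundamental identity** `∑_{w | v} e(w|v) f(w|v) = [F' : F]`. -/
theorem sum_ramificationIndex_mul_inertiaDeg_place (v : Place K F) :
    ∑ w ∈ v.fiber F', (w.ramificationIndex F : ℤ) * (w.inertiaDeg F : ℤ) =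
      (Module.finrank F F' : ℤ) := by
  let A := ↥v.toValuationSubring
  let _ : Algebra A F' := ((algebraMap F F').comp (algebraMap A F)).toAlgebra
  have : IsScalarTower A F F' := IsScalarTower.of_algebraMap_eq fun _ => rfl
  have : IsScalarTower K A F' := IsScalarTower.of_algebraMap_eq fun k => by
    show algebraMap K F' k = algebraMap F F' (algebraMap A F (algebraMap K A k))
    rw [← IsScalarTower.algebraMap_apply K A F, ← IsScalarTower.algebraMap_apply K F F']
  have : Module.IsTorsionFree A F' := Module.isTorsionFree_iff_algebraMap_injective.mpr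
    ((algebraMap F F').injective.comp (IsFractionRing.injective A F))
  let B := integralClosure A F'
  have : IsDedekindDomain B := integralClosure.isDedekindDomain A F F'
  have : IsFractionRing B F' := integralClosure.isFractionRing_of_finite_extension F F'
  have : Module.Finite A B := IsIntegralClosure.finite A F F' B
  have h := sum_ramificationIndex_mul_inertiaDeg (K := K) (F := F) (F' := F') B v.heightOneSpectrum
  rwa [placeOfPrime_heightOneSpectrum] at h

set_option maxHeartbeats 1000000 in
/-- **Norm formula** `∑_{w | v} f(w|v) ord_w g = ord_v (N g)`. -/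
theorem sum_ord_mul_inertiaDeg_place (v : Place K F) {g : F'} (hg : g ≠ 0) :
    ∑ w ∈ v.fiber F', w.ord g * (w.inertiaDeg F : ℤ) = v.ord (Algebra.norm F g) := by
  let A := ↥v.toValuationSubring
  let _ : Algebra A F' := ((algebraMap F F').comp (algebraMap A F)).toAlgebra
  have : IsScalarTower A F F' := IsScalarTower.of_algebraMap_eq fun _ => rfl
  have : IsScalarTower K A F' := IsScalarTower.of_algebraMap_eq fun k => by
    show algebraMap K F' k = algebraMap F F' (algebraMap A F (algebraMap K A k))
    rw [← IsScalarTower.algebraMap_apply K A F, ← IsScalarTower.algebraMap_apply K F F']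
  have : Module.IsTorsionFree A F' := Module.isTorsionFree_iff_algebraMap_injective.mpr
    ((algebraMap F F').injective.comp (IsFractionRing.injective A F))
  let B := integralClosure A F'
  have : IsDedekindDomain B := integralClosure.isDedekindDomain A F F'
  have : IsFractionRing B F' := integralClosure.isFractionRing_of_finite_extension F F'
  have : Module.Finite A B := IsIntegralClosure.finite A F F' B
  have : PerfectField (FractionRing A) :=
    PerfectField.of_ringEquiv (FractionRing.algEquiv A F).symm.toRingEquiv
  have h := sum_ord_mul_inertiaDeg (K := K) (F := F) (F' := F') B v.heightOneSpectrum hg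
  rwa [placeOfPrime_heightOneSpectrum] at h

/-- The prelude's `SumRamificationInertia` for a finite extension of a perfect field. -/
theorem sumRamificationInertia : SumRamificationInertia K F F' :=
  ⟨sum_ramificationIndex_mul_inertiaDeg_place⟩

/-- The prelude's `FundamentalIdentity` for a finite extension of a perfect field. -/
theorem fundamentalIdentity : FundamentalIdentity K F F' :=
  haveI := sumRamificationInertia (K := K) (F := F) (F' := F')
  inferInstance

/-- The prelude's `PushforwardNormFormula` for a finite extension of a perfect field. -/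
theorem pushforwardNormFormula : Divisor.PushforwardNormFormula K F F' := by
  classical
  intro f hf D hD v
  rw [Divisor.pushforward_apply, ← Finset.sum_filter]
  have hsub : D.support.filter (fun w => w.restrict F = v) ⊆ v.fiber F' := by
    intro w hw
    exact Place.mem_fiber.mpr (Finset.mem_filter.mp hw).2
  rw [Finset.sum_subset hsub, ← sum_ord_mul_inertiaDeg_place v hf]
  · exact Finset.sum_congr rfl (fun w _ => by rw [hD])
  · intro w hw hnot
    have h0 : D w = 0 := by
      by_contra h
      exact hnot (Finset.mem_filter.mpr ⟨Finsupp.mem_support_iff.mpr h, Place.mem_fiber.mp hw⟩)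
    rw [h0, zero_mul]

end Concrete

section Along

variable {K F F' : Type*} [Field K] [Field F] [Field F'] [Algebra K F] [Algebra K F']
  [PerfectField F] [HasPrincipalDivisors K F']

theorem isIntegral_of_finiteAlong (φ : F →ₐ[K] F') (hfin : FiniteAlong K φ) :
    φ.toRingHom.IsIntegral := by
  let _ := algebraAlong φ
  have : Module.Finite F F' := hfin
  exact (Algebra.IsIntegral.of_finite F F').isIntegral

/-- `FundamentalIdentityAlong` for a finite morphism out of a perfect field. -/
theorem fundamentalIdentityAlong (φ : F →ₐ[K] F') (hφ : φ.toRingHom.IsIntegral)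
    (hfin : FiniteAlong K φ) : FundamentalIdentityAlong K φ hφ := by
  let _ := algebraAlong φ
  have := isScalarTower_along φ
  have : Module.Finite F F' := hfin
  exact fundamentalIdentity (K := K) (F := F) (F' := F')

/-- `NormFormulaAlong` for a finite morphism out of a perfect field. -/
theorem normFormulaAlong (φ : F →ₐ[K] F') (hfin : FiniteAlong K φ) :
    NormFormulaAlong K φ hfin := by
  let _ := algebraAlong φ
  have := isScalarTower_along φ
  have : Module.Finite F F' := hfin
  exact pushforwardNormFormula (K := K) (F := F) (F' := F')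

end Along

end Fermat.Agent.Gateway.HK1
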